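import Fermat.Agent.A2.H849.Hartogs

/-!
# Cell A2, route G, leaf BASE — abstract part (helper643)

`B` a noetherian integrally closed domain with fraction field `F`, `w ∈ B`, `w ≠ 0`, and two
primes `p`, `p'` of `B` with `p ⊓ p' = (w)`, `¬ p' ≤ p`.  Then `B_p` is a discrete valuation ring
with uniformiser `w`; we record this elementwise for the valuation subring
`H849.locValuationSubring p` of `F`.
-/

set_option autoImplicit false
set_option linter.unusedSectionVars false

namespace Fermat.Agent.A2.H643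

open IsLocalRing Fermat.Agent.A2.H849

section Abs

variable {B : Type*} [CommRing B] [IsDomain B] [IsNoetherianRing B] [IsIntegrallyClosed B]
variable {F : Type*} [Field F] [Algebra B F] [IsFractionRing B F]

/-- `p` is the colon ideal `(w) : s` for every `s ∈ p' ∖ p`. -/
theorem base_colon {w : B} {p p' : Ideal B} [hp : p.IsPrime]
    (hinf : p ⊓ p' = Ideal.span {w}) {s : B} (hs' : s ∈ p') (hs : s ∉ p) (r : B) :
    r ∈ p ↔ w ∣ r * s := by
  constructor
  · intro hr
    have h : r * s ∈ p ⊓ p' := ⟨p.mul_mem_right s hr, p'.mul_mem_left r hs'⟩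
    rw [hinf] at h
    exact Ideal.mem_span_singleton.1 h
  · intro h
    have h1 : r * s ∈ p ⊓ p' := by
      rw [hinf]
      exact Ideal.mem_span_singleton.2 h
    rcases hp.mem_or_mem h1.1 with h2 | h2
    · exact h2
    · exact absurd h2 hs

theorem base_w_mem {w : B} {p p' : Ideal B} (hinf : p ⊓ p' = Ideal.span {w}) : w ∈ p := by
  have h : w ∈ p ⊓ p' := by
    rw [hinf]
    exact Ideal.mem_span_singleton_self w
  exact h.1

variable (F) in
/-- `B_p` is a discrete valuation ring. -/
theorem base_dvr {w : B} (hw : w ≠ 0) {p p' : Ideal B} [hp : p.IsPrime]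
    (hinf : p ⊓ p' = Ideal.span {w}) (hle : ¬ p' ≤ p) :
    IsDiscreteValuationRing (locAt F p) := by
  obtain ⟨s, hs', hs⟩ := SetLike.not_le_iff_exists.1 hle
  exact isDiscreteValuationRing_locAt_of_colon p w s hw (base_colon hinf hs' hs)

variable (F) in
/-- The valuation subring `B_p` of `F`. -/
noncomputable def baseV {w : B} (hw : w ≠ 0) {p p' : Ideal B} [hp : p.IsPrime]
    (hinf : p ⊓ p' = Ideal.span {w}) (hle : ¬ p' ≤ p) : ValuationSubring F :=
  haveI := base_dvr F hw hinf hle
  locValuationSubring p (inferInstance : ValuationRing (locAt F p))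

theorem mem_baseV_iff {w : B} (hw : w ≠ 0) {p p' : Ideal B} [hp : p.IsPrime]
    (hinf : p ⊓ p' = Ideal.span {w}) (hle : ¬ p' ≤ p) (c : F) :
    c ∈ baseV F hw hinf hle ↔
      ∃ a s : B, s ∉ p ∧ c = algebraMap B F a * (algebraMap B F s)⁻¹ :=
  mem_locAt_iff p c

theorem algebraMap_mem_baseV {w : B} (hw : w ≠ 0) {p p' : Ideal B} [hp : p.IsPrime]
    (hinf : p ⊓ p' = Ideal.span {w}) (hle : ¬ p' ≤ p) (b : B) :
    algebraMap B F b ∈ baseV F hw hinf hle :=
  (mem_baseV_iff hw hinf hle _).2 ⟨b, 1, fun h => hp.ne_top ((Ideal.eq_top_iff_one p).2 h),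
    by rw [map_one, inv_one, mul_one]⟩

theorem inv_mem_baseV {w : B} (hw : w ≠ 0) {p p' : Ideal B} [hp : p.IsPrime]
    (hinf : p ⊓ p' = Ideal.span {w}) (hle : ¬ p' ≤ p) {s : B} (hs : s ∉ p) :
    (algebraMap B F s)⁻¹ ∈ baseV F hw hinf hle :=
  (mem_baseV_iff hw hinf hle _).2 ⟨1, s, hs, by rw [map_one, one_mul]⟩

/-- Elements of `p` are non-units of `B_p`. -/
theorem mem_nonunits_baseV {w : B} (hw : w ≠ 0) {p p' : Ideal B} [hp : p.IsPrime]
    (hinf : p ⊓ p' = Ideal.span {w}) (hle : ¬ p' ≤ p) {r : B} (hr : r ∈ p) :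
    algebraMap B F r ∈ (baseV F hw hinf hle).nonunits := by
  have hinj : Function.Injective (algebraMap B F) := IsFractionRing.injective B F
  rw [ValuationSubring.mem_nonunits_iff_or]
  by_cases hr0 : r = 0
  · left
    rw [hr0, map_zero]
  · right
    exact (isLocDVR_locValuationSubring p (base_dvr F hw hinf hle)).inv_not_mem r hr hr0

/-- The maximal ideal of `B_p` is generated by `w`. -/
theorem base_maximalIdeal {w : B} {p p' : Ideal B} [hp : p.IsPrime]
    (hinf : p ⊓ p' = Ideal.span {w}) (hle : ¬ p' ≤ p) :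
    maximalIdeal (locAt F p) = Ideal.span {algebraMap B (locAt F p) w} := by
  obtain ⟨s, hs', hs⟩ := SetLike.not_le_iff_exists.1 hle
  rw [← IsLocalization.AtPrime.map_eq_maximalIdeal p (locAt F p)]
  apply le_antisymm
  · rw [Ideal.map_le_iff_le_comap]
    intro r hr
    obtain ⟨b, hb⟩ := (base_colon hinf hs' hs r).1 hr
    rw [Ideal.mem_comap, Ideal.mem_span_singleton]
    have hsu : IsUnit (algebraMap B (locAt F p) s) :=
      IsLocalization.map_units (M := p.primeCompl) (locAt F p) ⟨s, hs⟩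
    obtain ⟨t, ht⟩ := hsu.exists_right_inv
    refine ⟨algebraMap B (locAt F p) b * t, ?_⟩
    calc algebraMap B (locAt F p) r
        = algebraMap B (locAt F p) r * (algebraMap B (locAt F p) s * t) := by
          rw [ht, mul_one]
      _ = algebraMap B (locAt F p) (r * s) * t := by rw [map_mul]; ring
      _ = algebraMap B (locAt F p) w * (algebraMap B (locAt F p) b * t) := by
          rw [hb, map_mul]; ring
  · rw [Ideal.span_singleton_le_iff_mem]
    exact Ideal.mem_map_of_mem _ (base_w_mem hinf)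

/-- **Discreteness**: every nonzero element of `F` is `w ^ n` times a unit of `B_p`. -/
theorem base_discrete {w : B} (hw : w ≠ 0) {p p' : Ideal B} [hp : p.IsPrime]
    (hinf : p ⊓ p' = Ideal.span {w}) (hle : ¬ p' ≤ p) (f : F) (hf : f ≠ 0) :
    ∃ (n : ℤ) (u : F), u ∈ baseV F hw hinf hle ∧ u⁻¹ ∈ baseV F hw hinf hle ∧
      f = algebraMap B F w ^ n * u := by
  have := base_dvr F hw hinf hle
  set D := locAt F p with hD
  set wD : D := algebraMap B D w with hwD
  have hirr : Irreducible wD :=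
    (IsDiscreteValuationRing.irreducible_iff_uniformizer wD).2 (base_maximalIdeal hinf hle)
  have hwF : ((wD : D) : F) = algebraMap B F w := rfl
  -- the case `f ∈ B_p`
  have key : ∀ g : F, g ≠ 0 → g ∈ baseV F hw hinf hle →
      ∃ (n : ℕ) (u : F), u ∈ baseV F hw hinf hle ∧ u⁻¹ ∈ baseV F hw hinf hle ∧
        g = algebraMap B F w ^ n * u := by
    intro g hg hgV
    have hgD : g ∈ D := hgV
    have hd0 : (⟨g, hgD⟩ : D) ≠ 0 := fun h => hg (congrArg (fun z : D => (z : F)) h)
    obtain ⟨n, u, hu⟩ := IsDiscreteValuationRing.associated_pow_irreducible hd0 hirr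
    -- `g * u = wD ^ n`
    have h1 : g * ((u : D) : F) = algebraMap B F w ^ n := by
      have h4 := congrArg (fun z : D => (z : F)) hu
      simp only [Subalgebra.coe_mul, Subalgebra.coe_pow] at h4
      rw [hwF] at h4
      exact h4
    have hu0 : ((u : D) : F) ≠ 0 := by
      intro h0
      have : ((u : D)) = 0 := Subtype.ext h0
      exact u.ne_zero this
    have huinv : (((u⁻¹ : Dˣ) : D) : F) = (((u : D) : F))⁻¹ := by
      have h2 : ((u : D) : F) * (((u⁻¹ : Dˣ) : D) : F) = 1 := by
        have h3 : ((u : D) * ((u⁻¹ : Dˣ) : D) : D) = 1 := u.mul_inv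
        exact congrArg (fun z : D => (z : F)) h3
      exact eq_inv_of_mul_eq_one_right h2
    refine ⟨n, (((u : D) : F))⁻¹, ?_, ?_, ?_⟩
    · rw [← huinv]
      exact ((u⁻¹ : Dˣ) : D).2
    · rw [inv_inv]
      exact (u : D).2
    · rw [← h1]
      field_simp
  rcases (baseV F hw hinf hle).mem_or_inv_mem f with h | h
  · obtain ⟨n, u, hu, hu', hfu⟩ := key f hf h
    exact ⟨n, u, hu, hu', by rw [hfu, zpow_natCast]⟩
  · obtain ⟨n, u, hu, hu', hfu⟩ := key f⁻¹ (inv_ne_zero hf) h
    refine ⟨-n, u⁻¹, hu', by rwa [inv_inv], ?_⟩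
    rw [zpow_neg, zpow_natCast, ← mul_inv, ← hfu, inv_inv]

end Abs

end Fermat.Agent.A2.H643
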