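import Mathlib.RingTheory.IntegralClosure.GoingDown
import Mathlib.RingTheory.Ideal.GoingUp
import Mathlib.Tactic

/-!
# Cell A2, route G, leaf BASE — lying over `(π)` (helper643)

`A` an integrally closed domain, `B` a domain, integral and faithful over `A`, `π ∈ A` prime,
`w = π` in `B`, and two incomparable primes `p₁`, `p₂` of `B` with `p₁ ⊓ p₂ = (w)`.  Then
`p₁` and `p₂` lie over `(π)` (going down), and they are the only primes of `B` lying over `(π)`
(incomparability).
-/

set_option autoImplicit false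
set_option linter.unusedSectionVars false

namespace Fermat.Agent.A2.H643

section Over

variable {A B : Type*} [CommRing A] [IsDomain A] [IsIntegrallyClosed A]
  [CommRing B] [IsDomain B] [Algebra A B] [FaithfulSMul A B] [Algebra.IsIntegral A B]

/-- A prime `p₁` which is a component of `(w)` lies over `(π)`. -/
theorem over_under_eq {π : A} (hπ : Prime π) {p₁ p₂ : Ideal B} [hp₁ : p₁.IsPrime]
    (hinf : p₁ ⊓ p₂ = Ideal.span {algebraMap A B π}) (hle : ¬ p₂ ≤ p₁) :
    p₁.comap (algebraMap A B) = Ideal.span {π} := by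
  have hq₀ : (Ideal.span {π} : Ideal A).IsPrime :=
    (Ideal.span_singleton_prime hπ.ne_zero).2 hπ
  have hwp : algebraMap A B π ∈ p₁ := by
    have h : algebraMap A B π ∈ p₁ ⊓ p₂ := by
      rw [hinf]
      exact Ideal.mem_span_singleton_self _
    exact h.1
  have hle0 : Ideal.span {π} ≤ p₁.under A := by
    rw [Ideal.span_singleton_le_iff_mem]
    exact hwp
  obtain ⟨P, hPle, hPprime, hPover⟩ :=
    Ideal.exists_ideal_le_liesOver_of_le (p := Ideal.span {π}) (q := p₁.under A) p₁ hle0
  have hPu : Ideal.span {π} = P.under A := hPover.over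
  have hwP : algebraMap A B π ∈ P := by
    have h1 : π ∈ P.under A := by
      rw [← hPu]
      exact Ideal.mem_span_singleton_self _
    exact h1
  have h2 : p₁ ⊓ p₂ ≤ P := by
    rw [hinf, Ideal.span_singleton_le_iff_mem]
    exact hwP
  rcases hPprime.inf_le.1 h2 with h3 | h3
  · have hP : P = p₁ := le_antisymm hPle h3
    rw [hPu, hP]
  · exact absurd (h3.trans hPle) hle

/-- The components are the only primes lying over `(π)`. -/
theorem eq_or_eq_of_under_eq {π : A} (hπ : Prime π) {p₁ p₂ : Ideal B} [hp₁ : p₁.IsPrime]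
    [hp₂ : p₂.IsPrime] (hinf : p₁ ⊓ p₂ = Ideal.span {algebraMap A B π})
    (h₁₂ : ¬ p₁ ≤ p₂) (h₂₁ : ¬ p₂ ≤ p₁) {P : Ideal B} (hP : P.IsPrime)
    (hPu : P.comap (algebraMap A B) = Ideal.span {π}) : P = p₁ ∨ P = p₂ := by
  have hwP : algebraMap A B π ∈ P := by
    have h1 : π ∈ P.comap (algebraMap A B) := by
      rw [hPu]
      exact Ideal.mem_span_singleton_self _
    exact h1
  have h2 : p₁ ⊓ p₂ ≤ P := by
    rw [hinf, Ideal.span_singleton_le_iff_mem]
    exact hwP
  have hinf' : p₂ ⊓ p₁ = Ideal.span {algebraMap A B π} := by rw [inf_comm, hinf]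
  have key : ∀ (p p' : Ideal B) [p.IsPrime], p ⊓ p' = Ideal.span {algebraMap A B π} →
      ¬ p' ≤ p → p ≤ P → P = p := by
    intro p p' _ hi hl hle
    by_contra hne
    have hlt : p < P := lt_of_le_of_ne hle (Ne.symm hne)
    obtain ⟨b, hbP, hbp⟩ := SetLike.exists_of_lt hlt
    have h3 := Ideal.comap_lt_comap_of_integral_mem_sdiff (R := A) hle ⟨hbP, hbp⟩
      (Algebra.IsIntegral.isIntegral b)
    rw [over_under_eq hπ hi hl, hPu] at h3
    exact lt_irrefl _ h3
  rcases hP.inf_le.1 h2 with h3 | h3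
  · exact Or.inl (key p₁ p₂ hinf h₂₁ h3)
  · exact Or.inr (key p₂ p₁ hinf' h₁₂ h3)

end Over

end Fermat.Agent.A2.H643
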