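import Fermat.Agent.A2.H12.AlgLeaves
import Fermat.Agent.A2.H12.GLemmas
import Fermat.Agent.S18.H394.ChartInst
import Fermat.Agent.A2.H643.BaseAbs
import Fermat.Agent.A2.H643.BaseOver

/-!
# Cell A2, route G: the leaf BASE (helper643)

`baseLeaf : Fermat.Agent.A2.H12.BaseLeaf` — in the context of `AlgSSStatement`:

* the sheets of `F` (valuation subrings extending the Gauss valuation of `R[x]`) are exactly the
  two localisations `Bf_{p₁}`, `Bf_{p₂}` of the chart `Bf` at its components (`SSChart`);
* they are discrete with uniformiser `w`;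
* they are `τ`-stable and `τ ≡ id` on their residue fields.
-/

set_option autoImplicit false
set_option linter.unusedSectionVars false

namespace Fermat.Agent.A2.H643

open Polynomial Fermat.Agent.A2 Fermat.Agent.A2.H12
open Fermat.Agent.S18.H138 (chart baseField)

section FD

variable {R E F : Type*} [CommRing R] [IsDomain R] [Field E] [Algebra R E] [IsFractionRing R E]
  [Field F] [Algebra E F] [Algebra R F] [IsScalarTower R E F]

/-- `F` is finite over `baseField R x` if it is finite over `E(x)`, `E = Frac R`. -/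
theorem finiteDimensional_baseField_of_adjoin (x : F)
    [FiniteDimensional (IntermediateField.adjoin E ({x} : Set F)) F] :
    FiniteDimensional (baseField R x) F := by
  set K₀ := IntermediateField.adjoin E ({x} : Set F) with hK₀
  set K := baseField R x with hK
  have hEK : ∀ e : E, algebraMap E F e ∈ K := by
    intro e
    obtain ⟨a, b, hb, rfl⟩ := IsFractionRing.div_surjective (A := R) e
    rw [map_div₀, ← IsScalarTower.algebraMap_apply, ← IsScalarTower.algebraMap_apply]
    exact K.div_mem (Subfield.subset_closure (Or.inl ⟨a, rfl⟩))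
      (Subfield.subset_closure (Or.inl ⟨b, rfl⟩))
  have hle : ∀ y ∈ K₀, y ∈ K := by
    intro y hy
    have h1 : y ∈ K₀.toSubfield := hy
    rw [hK₀, IntermediateField.adjoin_toSubfield] at h1
    refine Subfield.closure_le.2 ?_ h1
    rintro z (⟨e, rfl⟩ | hz)
    · exact hEK e
    · rw [Set.mem_singleton_iff] at hz
      subst hz
      exact Subfield.subset_closure (Or.inr rfl)
  let φ : K₀ →+* K :=
    { toFun := fun a => ⟨a, hle a a.2⟩
      map_one' := rfl
      map_mul' := fun _ _ => rfl
      map_zero' := rfl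
      map_add' := fun _ _ => rfl }
  let _ : Algebra K₀ K := φ.toAlgebra
  have : IsScalarTower K₀ K F := IsScalarTower.of_algebraMap_eq fun _ => rfl
  exact Module.Finite.of_restrictScalars_finite K₀ K F

end FD

section Chart

variable {R : Type} [CommRing R] [IsDomain R] [IsNoetherianRing R] [IsIntegrallyClosed R[X]]
  {F : Type} [Field F] [Algebra R F] [CharZero F]

/-- Powers of a non-unit of a valuation subring are non-units. -/
theorem pow_mem_nonunits (V : ValuationSubring F) {a : F} (ha : a ∈ V.nonunits) {k : ℕ}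
    (hk : k ≠ 0) : a ^ k ∈ V.nonunits := by
  rw [ValuationSubring.mem_nonunits_iff] at ha ⊢
  rw [map_pow]
  exact pow_lt_one₀ zero_le ha hk

/-- One component of the chart: the localisation of the chart at `p` is a sheet, discrete with
uniformiser `w`, `τ`-stable with `τ ≡ id` on the residue field, and it is the only sheet with
centre `p`. -/
theorem base_component (hinj : Function.Injective (algebraMap R F)) {x : F} {w : R}
    (hw : Prime w) (B : Subalgebra R F) [IsNoetherianRing B] [IsIntegrallyClosed B]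
    [IsFractionRing B F] (hxB : x ∈ B)
    (hsheetB : ∀ V' : ValuationSubring F, IsSheet w x V' → ∀ b : B, (b : F) ∈ V')
    (p p' : Ideal B) [hp : p.IsPrime]
    (hinf : p ⊓ p' = Ideal.span {algebraMap R B w}) (hle : ¬ p' ≤ p)
    (hcomap : ∀ Q : R[X], aeval (⟨x, hxB⟩ : B) Q ∈ p → ∀ i, w ∣ Q.coeff i)
    (τ : F ≃+* F)
    (hτB : ∀ b ∈ B, ∃ c ∈ B, τ b - b = algebraMap R F w * c) :
    ∃ V : ValuationSubring F, IsSheet w x V ∧
      (∀ c ∈ V, τ c ∈ V ∧ τ c - c ∈ V.nonunits) ∧
      (∀ f : F, f ≠ 0 → ∃ (n : ℤ) (u : F), u ∈ V ∧ u⁻¹ ∈ V ∧ f = algebraMap R F w ^ n * u) ∧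
      ∀ V' : ValuationSubring F, IsSheet w x V' →
        (∀ b : B, b ∉ p → (b : F) ∉ V'.nonunits) → V' = V := by
  classical
  set wB : B := algebraMap R B w with hwB
  have hwF : ((wB : B) : F) = algebraMap R F w := rfl
  have hw0 : wB ≠ 0 := by
    intro h
    have h1 : algebraMap R F w = 0 := by rw [← hwF, h]; rfl
    exact hw.ne_zero (hinj (by rw [h1, map_zero]))
  have hwp : wB ∈ p := base_w_mem hinf
  set V := baseV F hw0 hinf hle with hV
  have hmem : ∀ c : F, c ∈ V ↔ ∃ a s : B, s ∉ p ∧ c = (a : F) * (s : F)⁻¹ :=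
    fun c => mem_baseV_iff hw0 hinf hle c
  have hBV : ∀ b : B, (b : F) ∈ V := fun b => algebraMap_mem_baseV hw0 hinf hle b
  have hwV : algebraMap R F w ∈ V.nonunits := by
    rw [← hwF]
    exact mem_nonunits_baseV hw0 hinf hle hwp
  have hdisc : ∀ f : F, f ≠ 0 → ∃ (n : ℤ) (u : F), u ∈ V ∧ u⁻¹ ∈ V ∧
      f = algebraMap R F w ^ n * u := base_discrete (F := F) hw0 hinf hle
  refine ⟨V, ⟨fun r => hBV (algebraMap R B r), hBV ⟨x, hxB⟩, hwV, ?_⟩, ?_, ?_, ?_⟩
  · -- Gauss
    intro Q hQ
    have hQp : aeval (⟨x, hxB⟩ : B) Q ∉ p := by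
      intro h
      obtain ⟨i, hi⟩ := hQ
      exact hi (hcomap Q h i)
    have h1 := inv_mem_baseV (F := F) hw0 hinf hle hQp
    have h2 : algebraMap B F (aeval (⟨x, hxB⟩ : B) Q) = aeval x Q :=
      Polynomial.aeval_subalgebra_coe Q B ⟨x, hxB⟩
    rwa [h2] at h1
  · -- stability
    intro c hc
    obtain ⟨a, s, hs, rfl⟩ := (hmem c).1 hc
    obtain ⟨a', ha', hτa⟩ := hτB a a.2
    obtain ⟨s', hs', hτs⟩ := hτB s s.2
    have hτa2 : τ (a : F) = ((a + wB * ⟨a', ha'⟩ : B) : F) := by
      rw [Subalgebra.coe_add, Subalgebra.coe_mul, hwF]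
      linear_combination hτa
    have hτs2 : τ (s : F) = ((s + wB * ⟨s', hs'⟩ : B) : F) := by
      rw [Subalgebra.coe_add, Subalgebra.coe_mul, hwF]
      linear_combination hτs
    have hs2 : (s + wB * ⟨s', hs'⟩ : B) ∉ p := by
      intro h
      apply hs
      have h1 : s = (s + wB * ⟨s', hs'⟩) - wB * ⟨s', hs'⟩ := by ring
      rw [h1]
      exact p.sub_mem h (p.mul_mem_right _ hwp)
    have hs0 : (s : F) ≠ 0 := by
      intro h
      apply hs
      have : s = 0 := Subtype.ext h
      rw [this]
      exact p.zero_mem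
    have hs20 : ((s + wB * ⟨s', hs'⟩ : B) : F) ≠ 0 := by
      intro h
      apply hs2
      have : (s + wB * ⟨s', hs'⟩ : B) = 0 := Subtype.ext h
      rw [this]
      exact p.zero_mem
    have hτc : τ ((a : F) * (s : F)⁻¹) = ((a + wB * ⟨a', ha'⟩ : B) : F) *
        ((s + wB * ⟨s', hs'⟩ : B) : F)⁻¹ := by
      rw [map_mul, map_inv₀, hτa2, hτs2]
    refine ⟨?_, ?_⟩
    · rw [hτc]
      exact (hmem _).2 ⟨_, _, hs2, rfl⟩
    · rw [hτc]
      -- numerator `w * (a' s - a s')`
      have hN : (wB * (⟨a', ha'⟩ * s - a * ⟨s', hs'⟩) : B) ∈ p := p.mul_mem_right _ hwp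
      have hNV := mem_nonunits_baseV (F := F) hw0 hinf hle hN
      have hden : ((s : F) * ((s + wB * ⟨s', hs'⟩ : B) : F))⁻¹ ∈ V := by
        have h1 : (s * (s + wB * ⟨s', hs'⟩) : B) ∉ p := fun h =>
          (hp.mem_or_mem h).elim hs hs2
        have := inv_mem_baseV (F := F) hw0 hinf hle h1
        rwa [show algebraMap B F (s * (s + wB * ⟨s', hs'⟩)) =
          (s : F) * ((s + wB * ⟨s', hs'⟩ : B) : F) from rfl] at this
      have hkey : ((a + wB * ⟨a', ha'⟩ : B) : F) * ((s + wB * ⟨s', hs'⟩ : B) : F)⁻¹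
          - (a : F) * (s : F)⁻¹
          = algebraMap B F (wB * (⟨a', ha'⟩ * s - a * ⟨s', hs'⟩)) *
            ((s : F) * ((s + wB * ⟨s', hs'⟩ : B) : F))⁻¹ := by
        have e1 : algebraMap B F (wB * (⟨a', ha'⟩ * s - a * ⟨s', hs'⟩))
            = algebraMap R F w * (a' * (s : F) - (a : F) * s') := rfl
        have e2 : ((a + wB * ⟨a', ha'⟩ : B) : F) = (a : F) + algebraMap R F w * a' := rfl
        have e3 : ((s + wB * ⟨s', hs'⟩ : B) : F) = (s : F) + algebraMap R F w * s' := rfl
        rw [e1]
        rw [e3] at hs20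
        rw [e2, e3]
        field_simp
        ring
      rw [hkey, mul_comm]
      exact H12.mul_mem_nonunits V hNV hden
  · exact hdisc
  · -- uniqueness
    intro V' hV' hcen
    have hBV' : ∀ b : B, (b : F) ∈ V' := hsheetB V' hV'
    have hwV' : algebraMap R F w ∈ V'.nonunits := hV'.2.2.1
    ext c
    constructor
    · intro hc
      by_cases hc0 : c = 0
      · rw [hc0]; exact V.zero_mem
      obtain ⟨n, u, hu, hu', hcu⟩ := hdisc c hc0
      -- `u` is a unit of `V'`
      have hunit : ∀ v : F, v ∈ V → v ∈ V' := by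
        intro v hv
        obtain ⟨a, s, hs, rfl⟩ := (hmem v).1 hv
        have h1 := hcen s hs
        rw [ValuationSubring.mem_nonunits_iff_or, not_or, not_not] at h1
        exact V'.mul_mem _ _ (hBV' a) h1.2
      have huV' : u ∈ V' := hunit u hu
      have hu'V' : u⁻¹ ∈ V' := hunit _ hu'
      have hu0 : u ≠ 0 := by
        rintro rfl
        rw [mul_zero] at hcu
        exact hc0 hcu
      rcases le_or_gt 0 n with hn | hn
      · obtain ⟨k, rfl⟩ := Int.eq_ofNat_of_zero_le hn
        rw [hcu, zpow_natCast]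
        exact V.mul_mem _ _ (V.pow_mem (hBV wB) k) hu
      · exfalso
        obtain ⟨k, hk⟩ : ∃ k : ℕ, n = -((k : ℤ) + 1) := ⟨(-n - 1).toNat, by omega⟩
        have h2 : (algebraMap R F w ^ (k + 1))⁻¹ ∈ V' := by
          have : (algebraMap R F w ^ (k + 1))⁻¹ = c * u⁻¹ := by
            rw [hcu, hk, zpow_neg, mul_assoc, mul_inv_cancel₀ hu0, mul_one]
            congr 1
            exact (zpow_natCast (algebraMap R F w) (k + 1)).symm
          rw [this]
          exact V'.mul_mem _ _ hc hu'V'
        have h3 := pow_mem_nonunits V' hwV' (Nat.succ_ne_zero k)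
        rw [ValuationSubring.mem_nonunits_iff_or] at h3
        rcases h3 with h3 | h3
        · have hw0F : algebraMap R F w ≠ 0 := by
            intro h
            exact hw.ne_zero (hinj (by rw [h, map_zero]))
          exact pow_ne_zero _ hw0F h3
        · exact h3 h2
    · intro hc
      obtain ⟨a, s, hs, rfl⟩ := (hmem c).1 hc
      have h1 := hcen s hs
      rw [ValuationSubring.mem_nonunits_iff_or, not_or, not_not] at h1
      exact V'.mul_mem _ _ (hBV' a) h1.2

/-- Integrality over `R[x]` transfers to integrality along `aeval x : R[X] → B`. -/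
theorem isIntegralElem_aeval_of_isIntegral_adjoin {R F : Type*} [CommRing R] [Field F]
    [Algebra R F] (x : F) (B : Subalgebra R F) (xB : B) (hxB : (xB : F) = x) (b : B)
    (hb : IsIntegral (Algebra.adjoin R ({x} : Set F)) (b : F)) :
    RingHom.IsIntegralElem ((aeval (R := R) xB : R[X] →ₐ[R] B) : R[X] →+* B) b := by
  classical
  obtain ⟨P, hPm, hP⟩ := hb
  have hx₀ : x ∈ Algebra.adjoin R ({x} : Set F) := Algebra.subset_adjoin (Set.mem_singleton x)
  -- lift the coefficients of `P` to `R[X]`
  have hsurj : Function.Surjective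
      ((aeval (R := R) (⟨x, hx₀⟩ : Algebra.adjoin R ({x} : Set F)) :
        R[X] →ₐ[R] Algebra.adjoin R ({x} : Set F)) :
          R[X] →+* Algebra.adjoin R ({x} : Set F)) := by
    intro a
    have ha : (a : F) ∈ (aeval (R := R) x).range := by
      rw [← Algebra.adjoin_singleton_eq_range_aeval]
      exact a.2
    obtain ⟨Q, hQ⟩ := ha
    refine ⟨Q, Subtype.ext ?_⟩
    rw [← hQ]
    exact Polynomial.aeval_subalgebra_coe Q _ ⟨x, hx₀⟩
  obtain ⟨P', hP'map, -, hP'm⟩ := Polynomial.lifts_and_degree_eq_and_monic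
    ((Polynomial.mem_lifts P).2 (Polynomial.map_surjective _ hsurj P)) hPm
  refine ⟨P', hP'm, ?_⟩
  apply Subtype.ext
  have hcomp : (B.val : B →+* F).comp ((aeval (R := R) xB : R[X] →ₐ[R] B) : R[X] →+* B)
      = (algebraMap (Algebra.adjoin R ({x} : Set F)) F).comp
          ((aeval (R := R) (⟨x, hx₀⟩ : Algebra.adjoin R ({x} : Set F)) :
            R[X] →ₐ[R] Algebra.adjoin R ({x} : Set F)) :
              R[X] →+* Algebra.adjoin R ({x} : Set F)) := by
    apply RingHom.ext
    intro Q
    have h1 : ((aeval (R := R) xB Q : B) : F) = aeval x Q := by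
      rw [Polynomial.aeval_subalgebra_coe Q B xB, hxB]
    have h2 : ((aeval (R := R) (⟨x, hx₀⟩ : Algebra.adjoin R ({x} : Set F)) Q :
        Algebra.adjoin R ({x} : Set F)) : F) = aeval x Q :=
      Polynomial.aeval_subalgebra_coe Q _ ⟨x, hx₀⟩
    exact h1.trans h2.symm
  have h1 := Polynomial.hom_eval₂ P' ((aeval (R := R) xB : R[X] →ₐ[R] B) : R[X] →+* B)
    (B.val : B →+* F) b
  rw [hcomp, ← Polynomial.eval₂_map, hP'map] at h1
  exact h1.trans hP

/-- The chart `chart R {x}` is integral over `R[X]` (acting through `aeval x`). -/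
theorem isIntegral_aeval_chart {R F : Type} [CommRing R] [IsDomain R] [Field F] [Algebra R F]
    [CharZero F] {x : F} (b : chart R ({x} : Set F)) :
    RingHom.IsIntegralElem
      ((aeval (R := R) (⟨x, S18.H138.mem_chart_of_mem (Set.mem_singleton x)⟩ :
        chart R ({x} : Set F)) : R[X] →ₐ[R] chart R ({x} : Set F)) :
          R[X] →+* chart R ({x} : Set F)) b :=
  isIntegralElem_aeval_of_isIntegral_adjoin x _ _ rfl b b.2

end Chart

section Leaf

/-- **Leaf BASE** of route G. -/
theorem baseLeaf : BaseLeaf := by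
  intro R E F _ _ _ _ _ _ _ _ _ _ _ _ _ w q m x Bf Bi τ τE τR ctx
  classical
  have hinjRE : Function.Injective (algebraMap R E) := IsFractionRing.injective R E
  have hinj : Function.Injective (algebraMap R F) := by
    rw [IsScalarTower.algebraMap_eq R E F]
    exact (algebraMap E F).injective.comp hinjRE
  have : CharZero F := charZero_of_injective_algebraMap (algebraMap E F).injective
  have hxR : Transcendental R x := ctx.transc.restrictScalars hinjRE
  have hw : Prime w := ctx.irr.prime
  have := ctx.fin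
  have : FiniteDimensional (baseField R x) F := finiteDimensional_baseField_of_adjoin (E := E) x
  have hBeq : Bf = chart R ({x} : Set F) := SetLike.ext fun f => ctx.hBf f
  subst hBeq
  obtain ⟨c⟩ := ctx.cf
  obtain ⟨i1, i2, i3⟩ := S18.H394.chart_instances (R := R) hxR
  have := c.prime₁
  have := c.prime₂
  have hxB : x ∈ chart R ({x} : Set F) := S18.H138.mem_chart_of_mem (Set.mem_singleton x)
  -- the chart as an `R[X]`-algebra
  letI alg : Algebra R[X] (chart R ({x} : Set F)) :=
    (aeval (⟨x, hxB⟩ : chart R ({x} : Set F))).toRingHom.toAlgebra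
  have halg : ∀ Q : R[X], algebraMap R[X] (chart R ({x} : Set F)) Q
      = aeval (⟨x, hxB⟩ : chart R ({x} : Set F)) Q := fun Q => rfl
  have hcoe : ∀ Q : R[X], ((aeval (⟨x, hxB⟩ : chart R ({x} : Set F)) Q :
      chart R ({x} : Set F)) : F) = aeval x Q :=
    fun Q => Polynomial.aeval_subalgebra_coe Q _ ⟨x, hxB⟩
  have hfaith : FaithfulSMul R[X] (chart R ({x} : Set F)) := by
    rw [faithfulSMul_iff_algebraMap_injective]
    intro P Q hPQ
    have h1 : aeval x P = aeval x Q := by
      rw [← hcoe, ← hcoe, ← halg, ← halg, hPQ]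
    exact transcendental_iff_injective.1 hxR h1
  have hint : Algebra.IsIntegral R[X] (chart R ({x} : Set F)) :=
    ⟨fun b => isIntegral_aeval_chart b⟩
  have hπ : Prime (C w : R[X]) := Polynomial.prime_C_iff.2 hw
  have hCw : algebraMap R[X] (chart R ({x} : Set F)) (C w)
      = algebraMap R (chart R ({x} : Set F)) w := by
    rw [halg, aeval_C]
  have hinf : c.p₁ ⊓ c.p₂ = Ideal.span {algebraMap R[X] (chart R ({x} : Set F)) (C w)} := by
    rw [hCw]
    exact c.inf_eq
  have hinf' : c.p₂ ⊓ c.p₁ = Ideal.span {algebraMap R[X] (chart R ({x} : Set F)) (C w)} := by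
    rw [inf_comm]
    exact hinf
  have hc1 := over_under_eq hπ hinf c.not_le₂₁
  have hc2 := over_under_eq hπ hinf' c.not_le₁₂
  have hcm : ∀ p : Ideal (chart R ({x} : Set F)),
      p.comap (algebraMap R[X] (chart R ({x} : Set F))) = Ideal.span {C w} →
      ∀ Q : R[X], aeval (⟨x, hxB⟩ : chart R ({x} : Set F)) Q ∈ p → ∀ i, w ∣ Q.coeff i := by
    intro p hp Q hQ i
    have h1 : Q ∈ p.comap (algebraMap R[X] (chart R ({x} : Set F))) := hQ
    rw [hp, Ideal.mem_span_singleton] at h1
    exact (Polynomial.C_dvd_iff_dvd_coeff _ _).1 h1 i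
  have hsheetB : ∀ V' : ValuationSubring F, IsSheet w x V' →
      ∀ b : chart R ({x} : Set F), (b : F) ∈ V' := fun V' hV' b =>
    hV'.chart_le (T := {x}) (fun y hy => Or.inl hy) b.2
  obtain ⟨V₁, hV₁s, hV₁τ, hV₁d, hV₁u⟩ := base_component hinj hw (chart R ({x} : Set F)) hxB
    hsheetB c.p₁ c.p₂ c.inf_eq c.not_le₂₁ (hcm _ hc1) τ ctx.hτf
  obtain ⟨V₂, hV₂s, hV₂τ, hV₂d, hV₂u⟩ := base_component hinj hw (chart R ({x} : Set F)) hxB
    hsheetB c.p₂ c.p₁ (by rw [inf_comm]; exact c.inf_eq) c.not_le₁₂ (hcm _ hc2) τ ctx.hτf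
  -- classification of the sheets
  have hclass : ∀ V : ValuationSubring F, IsSheet w x V → V = V₁ ∨ V = V₂ := by
    intro V hV
    let ι : chart R ({x} : Set F) →+* V :=
      { toFun := fun b => ⟨b, hsheetB V hV b⟩
        map_one' := rfl
        map_mul' := fun _ _ => rfl
        map_zero' := rfl
        map_add' := fun _ _ => rfl }
    set P : Ideal (chart R ({x} : Set F)) := (IsLocalRing.maximalIdeal V).comap ι with hP
    have hPprime : P.IsPrime := Ideal.comap_isPrime ι _
    have hPmem : ∀ b : chart R ({x} : Set F), b ∈ P ↔ (b : F) ∈ V.nonunits := by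
      intro b
      rw [hP, Ideal.mem_comap, ValuationSubring.mem_nonunits_iff_exists_mem_maximalIdeal]
      constructor
      · intro h
        exact ⟨hsheetB V hV b, h⟩
      · rintro ⟨_, h⟩
        exact h
    have hPu : P.comap (algebraMap R[X] (chart R ({x} : Set F))) = Ideal.span {C w} := by
      apply le_antisymm
      · intro Q hQ
        rw [Ideal.mem_span_singleton, Polynomial.C_dvd_iff_dvd_coeff]
        by_contra hcon
        rw [not_forall] at hcon
        have hinvmem := hV.2.2.2 Q hcon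
        have hnu : aeval x Q ∈ V.nonunits := by
          rw [← hcoe, ← hPmem]
          exact hQ
        rw [ValuationSubring.mem_nonunits_iff_or] at hnu
        rcases hnu with h0 | h0
        · have hQ0 : Q = 0 := by
            have := transcendental_iff_injective.1 hxR
            apply this
            rw [h0, map_zero]
          obtain ⟨i, hi⟩ := hcon
          apply hi
          rw [hQ0, coeff_zero]
          exact dvd_zero w
        · exact h0 hinvmem
      · rw [Ideal.span_singleton_le_iff_mem, Ideal.mem_comap, hPmem, hCw]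
        exact hV.2.2.1
    rcases eq_or_eq_of_under_eq hπ hinf c.not_le₁₂ c.not_le₂₁ hPprime hPu with h | h
    · left
      apply hV₁u V hV
      intro b hb
      rw [← hPmem, h]
      exact hb
    · right
      apply hV₂u V hV
      intro b hb
      rw [← hPmem, h]
      exact hb
  have hfwd : ∀ V : ValuationSubring F, IsSheet w x V → ∀ c ∈ V,
      τ c ∈ V ∧ τ c - c ∈ V.nonunits := by
    intro V hV
    rcases hclass V hV with rfl | rfl
    · exact hV₁τ
    · exact hV₂τ
  refine ⟨⟨V₁, hV₁s⟩, ?_, ?_⟩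
  · intro V hV a
    refine ⟨⟨fun h => (hfwd V hV a h).1, fun h => ?_⟩, fun h => (hfwd V hV a h).2⟩
    obtain ⟨r, hr, hfo⟩ := ctx.hfo
    have hiter : ∀ k : ℕ, (⇑τ)^[k] (τ a) ∈ V := by
      intro k
      induction k with
      | zero => exact h
      | succ k ih =>
        rw [Function.iterate_succ_apply']
        exact (hfwd V hV _ ih).1
    have h1 := hiter (r - 1)
    rw [← Function.iterate_succ_apply, Nat.succ_eq_add_one, Nat.sub_add_cancel hr, hfo] at h1
    exact h1
  · intro V hV
    rcases hclass V hV with rfl | rfl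
    · exact hV₁d
    · exact hV₂d

end Leaf

end Fermat.Agent.A2.H643
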